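import Fermat.Agent.AbVar.LocalAlg.Colon

/-!
# Coordinates in which the parameters are the variables
-/

set_option autoImplicit false

noncomputable section

open IsLocalRing

namespace Fermat.Agent.AbVar

variable {K : Type*} [Field K] {g : ℕ}

local notation "mP" => maximalIdeal (MvPowerSeries (Fin g) K)

/-- An endomorphism which is the identity to first order is the identity on graded pieces. -/
theorem sub_mem_pow_succ (χ : MvPowerSeries (Fin g) K →ₐ[K] MvPowerSeries (Fin g) K)
    (hχ : ∀ i, χ (MvPowerSeries.X i) - MvPowerSeries.X i ∈ mP ^ 2) :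
    ∀ (M : ℕ) {f}, f ∈ mP ^ M → χ f - f ∈ mP ^ (M + 1) := by
  have hX : ∀ i, (MvPowerSeries.X i : MvPowerSeries (Fin g) K) ∈ mP := fun i =>
    mvps_mem_maximalIdeal_iff.mpr (MvPowerSeries.constantCoeff_X i)
  have hm : ∀ f ∈ mP, χ f ∈ mP := fun f hf => by
    rw [maximalIdeal_eq_varIdeal] at hf
    induction hf using Submodule.span_induction with
    | mem x hx =>
      obtain ⟨i, rfl⟩ := hx
      simpa using add_mem (Ideal.pow_le_self two_ne_zero (hχ i)) (hX i)
    | zero => simp
    | add x y _ _ hx hy => rw [map_add]; exact add_mem hx hy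
    | smul a x _ hx => rw [smul_eq_mul, map_mul]; exact Ideal.mul_mem_left _ _ hx
  intro M
  induction M with
  | zero =>
    intro f _
    have h0 : f - algebraMap K _ (MvPowerSeries.constantCoeff f) ∈ mP :=
      mvps_mem_maximalIdeal_iff.mpr (by simp [MvPowerSeries.algebraMap_apply])
    have h1 := hm _ h0
    rw [map_sub, AlgHom.commutes] at h1
    rw [zero_add, pow_one]
    simpa using sub_mem h1 h0
  | succ M ih =>
    intro f hf
    rw [pow_succ] at hf
    refine Submodule.mul_induction_on hf (fun a ha b hb => ?_) fun x y hx hy => ?_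
    · rw [maximalIdeal_eq_varIdeal] at hb
      induction hb using Submodule.span_induction generalizing a with
      | mem x hx =>
        obtain ⟨i, rfl⟩ := hx
        rw [map_mul, show χ a * χ (MvPowerSeries.X i) - a * MvPowerSeries.X i =
          χ a * (χ (MvPowerSeries.X i) - MvPowerSeries.X i) + (χ a - a) * MvPowerSeries.X i
          by ring]
        have hχa : χ a ∈ mP ^ M := by
          simpa using add_mem (Ideal.pow_le_pow_right (Nat.le_succ M) (ih ha)) ha
        refine add_mem ?_ ?_
        · rw [show M + 1 + 1 = M + 2 from rfl, pow_add]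
          exact Ideal.mul_mem_mul hχa (hχ i)
        · rw [pow_succ]
          exact Ideal.mul_mem_mul (ih ha) (hX i)
      | zero => simp
      | add x y _ _ hx hy =>
        rw [mul_add, map_add, add_sub_add_comm]
        exact add_mem (hx a ha) (hy a ha)
      | smul c x _ hx =>
        rw [smul_eq_mul, ← mul_assoc]
        exact hx _ (Ideal.mul_mem_right c _ ha)
    · rw [map_add, add_sub_add_comm]
      exact add_mem hx hy

theorem eq_zero_of_forall_mem_pow {f : MvPowerSeries (Fin g) K} (h : ∀ M, f ∈ mP ^ M) : f = 0 :=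
  MvPowerSeries.ext fun α => by
    rw [map_zero]
    exact mem_maximalIdeal_pow_iff.mp (h (α.degree + 1)) α (Nat.lt_succ_self _)

/-- An endomorphism which is the identity to first order is bijective. -/
theorem bijective_of_sub_mem_sq (χ : MvPowerSeries (Fin g) K →ₐ[K] MvPowerSeries (Fin g) K)
    (hχ : ∀ i, χ (MvPowerSeries.X i) - MvPowerSeries.X i ∈ mP ^ 2) : Function.Bijective χ := by
  have key := sub_mem_pow_succ χ hχ
  refine ⟨(injective_iff_map_eq_zero χ).mpr fun f hf => eq_zero_of_forall_mem_pow fun M => ?_,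
    fun φ => ?_⟩
  · induction M with
    | zero => simp
    | succ M ih => simpa [hf] using key M ih
  let r : ℕ → MvPowerSeries (Fin g) K := fun M => Nat.rec 0 (fun _ x => x + (φ - χ x)) M
  have hr : ∀ M, φ - χ (r M) ∈ mP ^ M := by
    intro M
    induction M with
    | zero => simp
    | succ M ih =>
      show φ - χ (r M + (φ - χ (r M))) ∈ _
      rw [map_add, show φ - (χ (r M) + χ (φ - χ (r M))) =
        -(χ (φ - χ (r M)) - (φ - χ (r M))) by ring]
      exact neg_mem (key M ih)
  have hcauchy : ∀ {m n}, m ≤ n → r n - r m ∈ mP ^ m := by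
    intro m n hmn
    induction n, hmn using Nat.le_induction with
    | base => simp
    | succ n hmn ih =>
      show r n + (φ - χ (r n)) - r m ∈ _
      rw [show r n + (φ - χ (r n)) - r m = (r n - r m) + (φ - χ (r n)) by ring]
      exact add_mem ih (Ideal.pow_le_pow_right hmn (hr n))
  obtain ⟨L, hL⟩ := IsPrecomplete.prec (I := mP) inferInstance (f := r) fun {m n} hmn => by
    rw [SModEq.sub_mem, smul_eq_mul, Ideal.mul_top]
    simpa using neg_mem (hcauchy hmn)
  refine ⟨L, sub_eq_zero.mp (eq_zero_of_forall_mem_pow fun M => ?_)⟩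
  have h1 := hL M
  rw [SModEq.sub_mem, smul_eq_mul, Ideal.mul_top] at h1
  have h2 : χ (r M - L) ∈ mP ^ M := by
    simpa using add_mem (Ideal.pow_le_pow_right (Nat.le_succ M) (key M h1)) h1
  rw [map_sub] at h2
  rw [show χ L - φ = -(χ (r M) - χ L) - (φ - χ (r M)) by ring]
  exact sub_mem (neg_mem h2) (hr M)

/-- An expansion can be normalised so that the parameters go to the variables. -/
theorem Expansion.exists_normalized {O : Type*} [CommRing O] [IsLocalRing O] [Algebra K O]
    (E : Expansion K O g) :
    ∃ σ : O →ₐ[K] MvPowerSeries (Fin g) K, Function.Injective σ ∧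
      (∀ i, σ (E.t i) = MvPowerSeries.X i) ∧
      ∀ r, MvPowerSeries.constantCoeff (σ r) = MvPowerSeries.constantCoeff (E.σ r) := by
  have hu : MvPowerSeries.HasSubst fun i => E.σ (E.t i) :=
    MvPowerSeries.hasSubst_of_constantCoeff_zero fun i => by
      rw [← MvPowerSeries.coeff_zero_eq_constantCoeff_apply,
        lowZero_iff_sub.mp (E.σ_t i) 0 (by simp)]
      simp
  let χ := MvPowerSeries.substAlgHom (R := K) hu
  have hχ : ∀ i, χ (MvPowerSeries.X i) - MvPowerSeries.X i ∈ mP ^ 2 := fun i => by
    rw [MvPowerSeries.substAlgHom_X]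
    exact mem_maximalIdeal_pow_iff.mpr (E.σ_t i)
  let e := AlgEquiv.ofBijective χ (bijective_of_sub_mem_sq χ hχ)
  refine ⟨e.symm.toAlgHom.comp E.σ, e.symm.injective.comp E.injective, fun i => ?_, fun r => ?_⟩
  · refine e.injective (Eq.trans (e.apply_symm_apply _) ?_)
    exact (MvPowerSeries.substAlgHom_X hu i).symm
  · have h := sub_mem_pow_succ χ hχ 0 (f := e.symm (E.σ r)) (by simp)
    rw [show χ (e.symm (E.σ r)) = E.σ r from e.apply_symm_apply _, zero_add, pow_one,
      mvps_mem_maximalIdeal_iff, map_sub, sub_eq_zero] at h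
    exact h.symm

end Fermat.Agent.AbVar
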