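import Fermat.Agent.AbVar.LocalAlg.LowZero

/-!
# Power series rings over an infinite field are factorial

`MvPowerSeries (Fin n) K` is complete local and, by Weierstrass preparation and induction, a unique
factorisation domain.
-/

set_option autoImplicit false

noncomputable section

open Finsupp IsLocalRing

namespace Fermat.Agent.AbVar

variable {n : ℕ} {K : Type*} [Field K]

instance : IsDomain (MvPowerSeries (Fin n) K) := NoZeroDivisors.to_isDomain _

instance : IsAdicComplete (maximalIdeal (MvPowerSeries (Fin n) K))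
    (MvPowerSeries (Fin n) K) := by
  rw [maximalIdeal_eq_varIdeal, varIdeal]
  infer_instance

/-- Coefficients in terms of the power series in the first variable. -/
theorem constantCoeff_coeff_finSuccEquiv (f : MvPowerSeries (Fin (n + 1)) K) (k : ℕ) :
    MvPowerSeries.constantCoeff (PowerSeries.coeff k (MvPowerSeries.finSuccEquiv K n f)) =
      MvPowerSeries.coeff (single 0 k) f := by
  rw [← MvPowerSeries.coeff_zero_eq_constantCoeff_apply, MvPowerSeries.coeff_coeff_finSuccEquiv]
  refine congrArg (fun d => MvPowerSeries.coeff d f) (Finsupp.ext fun i => ?_)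
  refine Fin.cases ?_ (fun j => ?_) i
  · simp
  · simp [Finsupp.cons_succ, single_eq_of_ne (Fin.succ_ne_zero j)]

/-- A linear change of variables making a power series regular in the first variable. -/
theorem exists_algEquiv_regular [Infinite K] {f : MvPowerSeries (Fin (n + 1)) K} (hf : f ≠ 0) :
    ∃ (φ : MvPowerSeries (Fin (n + 1)) K ≃ₐ[K] MvPowerSeries (Fin (n + 1)) K) (k : ℕ),
      MvPowerSeries.coeff (single 0 k) (φ f) ≠ 0 := by
  classical
  obtain ⟨d₀, hd₀⟩ : ∃ d, MvPowerSeries.coeff d f ≠ 0 := by
    by_contra h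
    push Not at h
    exact hf (MvPowerSeries.ext h)
  set N := degree d₀
  set s := Finset.finsuppAntidiag (Finset.univ : Finset (Fin (n + 1))) N
  have hs : ∀ d : Fin (n + 1) →₀ ℕ, d ∈ s ↔ degree d = N := fun d => by
    simp [s, Finset.mem_finsuppAntidiag, Finsupp.degree_eq_sum]
  set F : MvPolynomial (Fin (n + 1)) K :=
    ∑ d ∈ s, MvPolynomial.monomial d (MvPowerSeries.coeff d f)
  have hF : F ≠ 0 := fun h => hd₀ (by
    have := congrArg (MvPolynomial.coeff d₀) h
    simpa [F, MvPolynomial.coeff_sum, MvPolynomial.coeff_monomial, hs d₀, N] using this)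
  obtain ⟨a, ha⟩ : ∃ a, MvPolynomial.eval a (F * MvPolynomial.X 0) ≠ 0 := by
    by_contra h
    push Not at h
    exact mul_ne_zero hF (MvPolynomial.X_ne_zero 0)
      (MvPolynomial.funext fun x => by rw [h x, map_zero])
  rw [map_mul, MvPolynomial.eval_X, mul_ne_zero_iff] at ha
  obtain ⟨haF, ha0⟩ := ha
  let v : Fin (n + 1) → MvPowerSeries (Fin (n + 1)) K := fun i =>
    a i • MvPowerSeries.X 0 + (if i = 0 then 0 else MvPowerSeries.X i)
  let w : Fin (n + 1) → MvPowerSeries (Fin (n + 1)) K := fun i =>
    if i = 0 then (a 0)⁻¹ • MvPowerSeries.X 0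
    else MvPowerSeries.X i - (a i * (a 0)⁻¹) • MvPowerSeries.X 0
  have hv : MvPowerSeries.HasSubst v := MvPowerSeries.hasSubst_of_constantCoeff_zero fun i => by
    simp only [v]; split_ifs <;> simp [MvPowerSeries.constantCoeff_smul]
  have hw : MvPowerSeries.HasSubst w := MvPowerSeries.hasSubst_of_constantCoeff_zero fun i => by
    simp only [w]; split_ifs <;> simp [MvPowerSeries.constantCoeff_smul]
  have hvw : (fun i => MvPowerSeries.subst w (v i)) = MvPowerSeries.X := funext fun i => by
    simp only [v]
    rw [MvPowerSeries.subst_add hw, MvPowerSeries.subst_smul hw, MvPowerSeries.subst_X hw]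
    by_cases hi : i = 0
    · subst hi
      rw [if_pos rfl, ← MvPowerSeries.coe_substAlgHom hw, map_zero, add_zero]
      simp [w, smul_smul, ha0]
    · simp [hi, w, MvPowerSeries.subst_X hw, smul_smul]
  have hwv : (fun i => MvPowerSeries.subst v (w i)) = MvPowerSeries.X := funext fun i => by
    simp only [w]
    by_cases hi : i = 0
    · subst hi
      simp [v, MvPowerSeries.subst_smul hv, MvPowerSeries.subst_X hv, smul_smul, ha0]
    · simp [hi, MvPowerSeries.subst_sub hv, MvPowerSeries.subst_smul hv,
        MvPowerSeries.subst_X hv, v, smul_smul, ha0]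
  refine ⟨AlgEquiv.ofAlgHom (MvPowerSeries.substAlgHom hv) (MvPowerSeries.substAlgHom hw)
    (AlgHom.ext fun x => ?_) (AlgHom.ext fun x => ?_), N, ?_⟩
  · simp only [AlgHom.comp_apply, MvPowerSeries.substAlgHom_apply, AlgHom.id_apply]
    rw [MvPowerSeries.subst_comp_subst_apply hw hv, hwv, MvPowerSeries.subst_self]; rfl
  · simp only [AlgHom.comp_apply, MvPowerSeries.substAlgHom_apply, AlgHom.id_apply]
    rw [MvPowerSeries.subst_comp_subst_apply hv hw, hvw, MvPowerSeries.subst_self]; rfl
  rw [AlgEquiv.ofAlgHom_apply, MvPowerSeries.substAlgHom_apply]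
  -- the substitution restricted to the first axis
  let v' : Fin (n + 1) → MvPowerSeries (Fin (n + 1)) K := fun i => a i • MvPowerSeries.X 0
  let u : Fin (n + 1) → MvPowerSeries (Fin (n + 1)) K := fun i =>
    if i = 0 then MvPowerSeries.X 0 else 0
  have hu : MvPowerSeries.HasSubst u := MvPowerSeries.hasSubst_of_constantCoeff_zero fun i => by
    simp only [u]; split_ifs <;> simp
  have hv' : MvPowerSeries.HasSubst v' := MvPowerSeries.hasSubst_of_constantCoeff_zero fun i => by
    simp [v', MvPowerSeries.constantCoeff_smul]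
  have hprod : ∀ d : Fin (n + 1) →₀ ℕ, (d.prod fun i e => v' i ^ e) =
      (∏ i, a i ^ d i) • MvPowerSeries.X 0 ^ degree d := fun d => by
    rw [Finsupp.prod_fintype _ _ fun i => pow_zero _, Finsupp.degree_eq_sum,
      ← Finset.prod_pow_eq_pow_sum, ← Finset.prod_smul]
    exact Finset.prod_congr rfl fun i _ => smul_pow _ _ _
  have hu1 : MvPowerSeries.coeff (single 0 N) (MvPowerSeries.subst v' f) = MvPolynomial.eval a F := by
    rw [MvPowerSeries.coeff_subst hv', finsum_eq_sum_of_support_subset _ (s := s) fun d hd => by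
      rw [Finset.mem_coe, hs]
      by_contra hne
      refine hd ?_
      show _ • _ = _
      rw [hprod, map_smul, MvPowerSeries.coeff_X_pow, if_neg fun h => hne ?_, smul_zero, smul_zero]
      have := DFunLike.congr_fun h 0
      simpa using this.symm]
    rw [map_sum]
    refine Finset.sum_congr rfl fun d hd => ?_
    rw [hprod, map_smul, MvPowerSeries.coeff_X_pow, if_pos (by rw [(hs d).mp hd]),
      MvPolynomial.eval_monomial, Finsupp.prod_fintype _ _ fun i => pow_zero _]
    simp
  have hcoord : ∀ g : MvPowerSeries (Fin (n + 1)) K,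
      MvPowerSeries.coeff (single 0 N) (MvPowerSeries.subst u g) =
        MvPowerSeries.coeff (single 0 N) g := fun g => by
    rw [MvPowerSeries.coeff_subst hu, finsum_eq_single _ (single 0 N) fun d hd => ?_]
    · rw [Finsupp.prod_single_index (h := fun s e => u s ^ e) (pow_zero _)]
      simp [u, MvPowerSeries.coeff_X_pow]
    · by_cases hd' : ∀ j, j ≠ 0 → d j = 0
      · have he : d = single 0 (d 0) := Finsupp.ext fun j => by
          by_cases hj : j = 0
          · simp [hj]
          · rw [hd' j hj, single_eq_of_ne hj]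
        rw [he, Finsupp.prod_single_index (h := fun s e => u s ^ e) (pow_zero _)]
        simp only [u, if_true, MvPowerSeries.coeff_X_pow]
        rw [if_neg fun h => hd ?_, smul_zero]
        rw [he, h]
      · push Not at hd'
        obtain ⟨j, hj, hdj⟩ := hd'
        rw [Finsupp.prod, Finset.prod_eq_zero (Finsupp.mem_support_iff.mpr hdj)
          (by simp [u, hj, zero_pow hdj]), map_zero, smul_zero]
  rw [← hcoord, MvPowerSeries.subst_comp_subst_apply hv hu,
    show (fun i => MvPowerSeries.subst u (v i)) = v' from funext fun i => ?_, hu1]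
  · exact haF
  simp only [v, v']
  rw [MvPowerSeries.subst_add hu, MvPowerSeries.subst_smul hu, MvPowerSeries.subst_X hu]
  by_cases hi : i = 0
  · subst hi
    rw [if_pos rfl, ← MvPowerSeries.coe_substAlgHom hu, map_zero, add_zero]
    simp [u]
  · simp [hi, u, MvPowerSeries.subst_X hu]

/-- A monic prime factor of a distinguished polynomial is prime in the power series ring. -/
theorem prime_coe_of_dvd_isDistinguishedAt {A : Type*} [CommRing A] [IsDomain A] [IsLocalRing A]
    [IsAdicComplete (maximalIdeal A) A] {d p : Polynomial A}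
    (hd : d.IsDistinguishedAt (maximalIdeal A)) (hp : Prime p) (hm : p.Monic) (hpd : p ∣ d) :
    Prime (p : PowerSeries A) := by
  have hdist : p.IsDistinguishedAt (maximalIdeal A) := by
    refine ⟨⟨fun {i} hi => ?_⟩, hm⟩
    have hdmap : d.map (residue A) = Polynomial.X ^ d.natDegree := by
      ext j
      rw [Polynomial.coeff_map, Polynomial.coeff_X_pow]
      split_ifs with hj
      · rw [hj, hd.monic.coeff_natDegree, map_one]
      · rcases lt_or_gt_of_ne hj with h | h
        · exact (residue_eq_zero_iff _).mpr (hd.mem h)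
        · rw [Polynomial.coeff_eq_zero_of_natDegree_lt h, map_zero]
    obtain ⟨k, -, hk⟩ := (dvd_prime_pow Polynomial.prime_X _).mp
      (hdmap ▸ Polynomial.map_dvd (residue A) hpd)
    have he := Polynomial.eq_of_monic_of_associated (hm.map _) (Polynomial.monic_X_pow k) hk
    have hnat := congrArg Polynomial.natDegree he
    rw [hm.natDegree_map, Polynomial.natDegree_X_pow] at hnat
    have := congrArg (fun q => q.coeff i) he
    simp only [Polynomial.coeff_map, Polynomial.coeff_X_pow] at this
    rw [if_neg (by omega)] at this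
    exact (residue_eq_zero_iff _).mp this
  have hne : (p : PowerSeries A) ≠ 0 := Polynomial.coe_eq_zero_iff.not.mpr hp.ne_zero
  rw [← Ideal.span_singleton_prime hne, ← Ideal.Quotient.isDomain_iff_prime]
  have : (Ideal.span {p} : Ideal (Polynomial A)).IsPrime :=
    (Ideal.span_singleton_prime hp.ne_zero).mpr hp
  exact hdist.algEquivQuotient.symm.toMulEquiv.isDomain _

/-- A power series ring over an infinite field is factorial. -/
theorem uniqueFactorizationMonoid_mvPowerSeries [Infinite K] :
    ∀ n, UniqueFactorizationMonoid (MvPowerSeries (Fin n) K)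
  | 0 => (MvPowerSeries.isEmptyEquiv (Fin 0) K).toMulEquiv.symm.uniqueFactorizationMonoid
      inferInstance
  | n + 1 => by
    have := uniqueFactorizationMonoid_mvPowerSeries n
    refine UniqueFactorizationMonoid.iff_exists_prime_mem_of_isPrime.mpr fun Q hQ0 hQ => ?_
    obtain ⟨f, hfQ, hf⟩ := Submodule.exists_mem_ne_zero_of_ne_bot hQ0
    obtain ⟨φ, k, hk⟩ := exists_algEquiv_regular hf
    let e := φ.trans (MvPowerSeries.finSuccEquiv K n)
    have hg : (e f).map (residue (MvPowerSeries (Fin n) K)) ≠ 0 := fun h => hk (by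
      rw [← constantCoeff_coeff_finSuccEquiv]
      have h' := congrArg (PowerSeries.coeff k) h
      rw [PowerSeries.coeff_map, map_zero, residue_eq_zero_iff, mem_maximalIdeal,
        mem_nonunits_iff, MvPowerSeries.isUnit_iff_constantCoeff, isUnit_iff_ne_zero,
        not_not] at h'
      exact h')
    obtain ⟨d, u, H⟩ := PowerSeries.exists_isWeierstrassFactorization hg
    set Q' : Ideal (PowerSeries (MvPowerSeries (Fin n) K)) := Q.comap e.symm
    have hdQ : (d : PowerSeries _) ∈ Q' := by
      refine (Ideal.IsPrime.mem_or_mem (Ideal.comap_isPrime e.symm Q) (show (d : PowerSeries _) * u ∈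
        Q' by rw [← H.eq_mul]; simpa [Q'] using hfQ)).resolve_right fun hu => ?_
      exact (Ideal.comap_isPrime e.symm Q).ne_top (Ideal.eq_top_of_isUnit_mem _ hu H.isUnit)
    obtain ⟨s, hs, heq⟩ := UniqueFactorizationMonoid.exists_prime_factors d
      H.isDistinguishedAt.monic.ne_zero
    have hmem : (s.map Polynomial.toPowerSeries).prod ∈ Q' := by
      obtain ⟨w, hw⟩ := heq.symm
      rw [show (s.map Polynomial.toPowerSeries).prod =
        ((s.prod : Polynomial _) : PowerSeries _) from
          (map_multiset_prod Polynomial.coeToPowerSeries.ringHom s).symm, ← hw, Polynomial.coe_mul]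
      exact Ideal.mul_mem_right _ _ hdQ
    obtain ⟨b, hb, hbQ⟩ := (Ideal.comap_isPrime e.symm Q)|>.multiset_prod_mem_iff_exists_mem _ |>.mp hmem
    obtain ⟨q, hq, rfl⟩ := Multiset.mem_map.mp hb
    have hqd : q ∣ d := (Multiset.dvd_prod hq).trans heq.dvd
    obtain ⟨r, hr⟩ := hqd
    have hlc : IsUnit q.leadingCoeff := IsUnit.of_mul_eq_one (a := q.leadingCoeff) r.leadingCoeff (by
      rw [← Polynomial.leadingCoeff_mul, ← hr, H.isDistinguishedAt.monic.leadingCoeff])
    set p := Polynomial.C (↑hlc.unit⁻¹ : MvPowerSeries (Fin n) K) * q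
    have hassoc : Associated q p := associated_unit_mul_right q _
      (Polynomial.isUnit_C.mpr (Units.isUnit _))
    have hm : p.Monic := Polynomial.monic_C_mul_of_mul_leadingCoeff_eq_one hlc.val_inv_mul
    have hprime := prime_coe_of_dvd_isDistinguishedAt H.isDistinguishedAt
      (hassoc.prime (hs q hq)) hm (hassoc.dvd_iff_dvd_left.mp ⟨r, hr⟩)
    refine ⟨e.symm p, ?_, (MulEquiv.prime_iff e.symm.toMulEquiv).mpr hprime⟩
    show (p : PowerSeries _) ∈ Q'
    rw [Polynomial.coe_mul]
    exact Ideal.mul_mem_left _ _ hbQ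

instance [Infinite K] : UniqueFactorizationMonoid (MvPowerSeries (Fin n) K) :=
  uniqueFactorizationMonoid_mvPowerSeries n

end Fermat.Agent.AbVar
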