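import Fermat.Agent.AbVar.LocalAlg.Expansion
import Fermat.Agent.AbVar.LocalAlg.PowerSeriesUFD

/-!
# Colon ideals in a local ring with an expansion

If `O` has an expansion over an infinite field, the colon ideals `(a : b)` of elements are
principal.
-/

set_option autoImplicit false

noncomputable section

open Finsupp IsLocalRing

namespace Fermat.Agent.AbVar

theorem mem_of_forall_mem_sup_pow {O : Type*} [CommRing O] [IsLocalRing O] [IsNoetherianRing O]
    (J : Ideal O) {x : O} (h : ∀ N, x ∈ J ⊔ maximalIdeal O ^ N) : x ∈ J := by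
  have h0 := Ideal.iInf_pow_smul_eq_bot_of_isLocalRing (maximalIdeal O) (M := O ⧸ J)
    (IsLocalRing.maximalIdeal.isMaximal O).ne_top
  have hx : Ideal.Quotient.mk J x ∈
      (⨅ N : ℕ, maximalIdeal O ^ N • ⊤ : Submodule O (O ⧸ J)) := by
    refine Submodule.mem_iInf _ |>.mpr fun N => ?_
    obtain ⟨a, ha, b, hb, rfl⟩ := Submodule.mem_sup.mp (h N)
    rw [map_add, Ideal.Quotient.eq_zero_iff_mem.mpr ha, zero_add,
      show Ideal.Quotient.mk J b = b • (1 : O ⧸ J) by
        rw [Algebra.smul_def, mul_one, Ideal.Quotient.algebraMap_eq]]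
    exact Submodule.smul_mem_smul hb Submodule.mem_top
  rw [h0, Submodule.mem_bot] at hx
  exact Ideal.Quotient.eq_zero_iff_mem.mp hx

theorem mem_maximalIdeal_pow_iff {K : Type*} [Field K] {g : ℕ} {f : MvPowerSeries (Fin g) K}
    {M : ℕ} : f ∈ maximalIdeal (MvPowerSeries (Fin g) K) ^ M ↔ LowZero M f := by
  rw [maximalIdeal_eq_varIdeal, mem_pow_varIdeal_iff]

theorem mvps_mem_maximalIdeal_iff {K : Type*} [Field K] {g : ℕ}
    {f : MvPowerSeries (Fin g) K} :
    f ∈ maximalIdeal (MvPowerSeries (Fin g) K) ↔ MvPowerSeries.constantCoeff f = 0 := by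
  rw [mem_maximalIdeal, mem_nonunits_iff, MvPowerSeries.isUnit_iff_constantCoeff,
    isUnit_iff_ne_zero, not_not]

namespace Expansion

variable {K O : Type*} [Field K] [CommRing O] [IsLocalRing O] [Algebra K O] {g : ℕ}

theorem mem_pow (E : Expansion K O g) {r : O} {M : ℕ} :
    E.σ r ∈ maximalIdeal (MvPowerSeries (Fin g) K) ^ M ↔ r ∈ maximalIdeal O ^ M := by
  rw [mem_maximalIdeal_pow_iff, E.mem_pow_iff]

theorem exists_approxPow (E : Expansion K O g) (M : ℕ) (φ : MvPowerSeries (Fin g) K) :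
    ∃ r, E.σ r - φ ∈ maximalIdeal (MvPowerSeries (Fin g) K) ^ M := by
  obtain ⟨r, hr⟩ := E.surj_trunc M φ
  exact ⟨r, mem_maximalIdeal_pow_iff.mpr hr⟩

/-- Colon ideals `(a : b)` of elements are principal. -/
theorem exists_colon_generator [Infinite K] [IsNoetherianRing O] (E : Expansion K O g) (a b : O)
    (ha : a ≠ 0) : ∃ c, ∀ h, a ∣ h * b ↔ c ∣ h := by
  set P := MvPowerSeries (Fin g) K
  have hσa : E.σ a ≠ 0 := (map_ne_zero_iff _ E.injective).mpr ha
  obtain ⟨γ, b', d, hrel, hγ, hb'⟩ :=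
    UniqueFactorizationMonoid.exists_reduced_factors (E.σ a) hσa (E.σ b)
  have hd : d ≠ 0 := fun h => hσa (by rw [← hγ, h, zero_mul])
  have hγ0 : γ ≠ 0 := fun h => hσa (by rw [← hγ, h, mul_zero])
  -- divisibility by `a` is detected in the power series ring
  have hdesc : ∀ {c h : O}, E.σ c ∣ E.σ h → c ∣ h := fun {c h} ⟨q, hq⟩ => by
    refine Ideal.mem_span_singleton.mp (mem_of_forall_mem_sup_pow (Ideal.span {c}) fun N => ?_)
    obtain ⟨s, hs⟩ := E.exists_approxPow N q
    refine Submodule.mem_sup.mpr ⟨c * s, Ideal.mul_mem_right _ _ (Ideal.mem_span_singleton_self c),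
      h - c * s, E.mem_pow.mp ?_, by ring⟩
    rw [map_sub, map_mul, hq, show E.σ c * q - E.σ c * E.σ s = -(E.σ c) * (E.σ s - q) by ring]
    exact Ideal.mul_mem_left _ _ hs
  have hiff : ∀ h : O, a ∣ h * b ↔ γ ∣ E.σ h := fun h => by
    constructor
    · intro hh
      have := map_dvd E.σ hh
      rw [map_mul, ← hγ, ← hb', mul_left_comm, mul_dvd_mul_iff_left hd] at this
      exact hrel.dvd_of_dvd_mul_right this
    · intro hh
      refine hdesc ?_
      rw [map_mul, ← hγ, ← hb', mul_left_comm, mul_dvd_mul_iff_left hd]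
      exact hh.mul_right _
  obtain ⟨d₀, hd₀⟩ : ∃ d₀, MvPowerSeries.coeff d₀ γ ≠ 0 := by
    by_contra h
    push Not at h
    exact hγ0 (MvPowerSeries.ext h)
  set N := degree d₀ + 1
  -- approximate `γ` by an element of the colon ideal
  obtain ⟨k, hk⟩ := Ideal.exists_pow_inf_eq_pow_smul (maximalIdeal O) (Ideal.span {a, b})
  obtain ⟨r, hr⟩ := E.exists_approxPow (N + k) γ
  obtain ⟨s, hs⟩ := E.exists_approxPow (N + k) b'
  have hmem : r * b - a * s ∈ maximalIdeal O ^ (N + k) := by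
    refine E.mem_pow.mp ?_
    rw [map_sub, map_mul, map_mul, ← hγ, ← hb',
      show E.σ r * (d * b') - d * γ * E.σ s = d * b' * (E.σ r - γ) - d * γ * (E.σ s - b') by ring]
    exact sub_mem (Ideal.mul_mem_left _ _ hr) (Ideal.mul_mem_left _ _ hs)
  have hmem2 : r * b - a * s ∈ maximalIdeal O ^ N * Ideal.span {a, b} := by
    have h2 : r * b - a * s ∈
        (maximalIdeal O ^ (N + k) • ⊤ ⊓ Ideal.span {a, b} : Submodule O O) :=
      ⟨by simpa using hmem, sub_mem
        (Ideal.mul_mem_left _ _ (Ideal.subset_span (by simp)))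
        (Ideal.mul_mem_right _ _ (Ideal.subset_span (by simp)))⟩
    rw [hk (N + k) (by omega), Nat.add_sub_cancel] at h2
    exact Submodule.smul_mono le_rfl inf_le_right h2
  rw [Ideal.span_insert, Ideal.mul_sup, Submodule.mem_sup] at hmem2
  obtain ⟨ua, hua, vb, hvb, he⟩ := hmem2
  obtain ⟨u, hu, rfl⟩ := Ideal.mem_mul_span_singleton.mp hua
  obtain ⟨v, hv, rfl⟩ := Ideal.mem_mul_span_singleton.mp hvb
  obtain ⟨w, hw⟩ := (hiff (r - v)).mp ⟨s + u, by linear_combination -he⟩
  have hclose : γ * (w - 1) ∈ maximalIdeal P ^ N := by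
    rw [mul_sub, mul_one, ← hw, map_sub,
      show E.σ r - E.σ v - γ = (E.σ r - γ) - E.σ v by ring]
    exact sub_mem (Ideal.pow_le_pow_right (by omega) hr) (E.mem_pow.mpr hv)
  have hwu : IsUnit w := by
    by_contra hw0
    have hw1 : IsUnit (w - 1) := by
      have hw' : MvPowerSeries.constantCoeff w = 0 :=
        mvps_mem_maximalIdeal_iff.mp ((mem_maximalIdeal w).mpr hw0)
      rw [MvPowerSeries.isUnit_iff_constantCoeff, map_sub, hw', map_one]
      simp
    refine hd₀ ((mem_maximalIdeal_pow_iff (M := N)).mp ?_ d₀ (Nat.lt_succ_self _))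
    exact (Ideal.mul_unit_mem_iff_mem _ hw1).mp hclose
  refine ⟨r - v, fun h => (hiff h).trans ⟨fun hh => hdesc ?_, fun hh => ?_⟩⟩
  · rw [hw]
    exact hwu.mul_right_dvd.mpr hh
  · exact (Dvd.intro w hw.symm).trans (map_dvd E.σ hh)

end Expansion

end Fermat.Agent.AbVar
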