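import Fermat.Agent.AbVar.LocalAlg.LowZero

/-!
# Power series expansions at a rational point of a smooth algebra
-/

set_option autoImplicit false

noncomputable section

open scoped Classical
open MvPowerSeries IsLocalRing

namespace Fermat.Agent.AbVar

universe u

/-- First order Taylor formula. -/
theorem aeval_add_of_mul_eq_zero {K C ι : Type*} [CommRing K] [CommRing C] [Algebra K C] [Fintype ι]
    (a : ι → K) (ε : ι → C) (hε : ∀ i j, ε i * ε j = 0) (p : MvPolynomial ι K) :
    MvPolynomial.aeval (fun i => algebraMap K C (a i) + ε i) p =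
      algebraMap K C (MvPolynomial.eval a p) +
        ∑ i, algebraMap K C (MvPolynomial.eval a (MvPolynomial.pderiv i p)) * ε i := by
  induction p using MvPolynomial.induction_on with
  | C c => simp
  | add p q hp hq =>
    simp only [map_add, hp, hq, add_mul, Finset.sum_add_distrib]
    ring
  | mul_X p n hp =>
    have hεn : ∀ i, ε i * ε n = 0 := fun i => hε i n
    simp only [map_mul, MvPolynomial.aeval_X, hp, MvPolynomial.eval_X, Derivation.leibniz,
      map_add, smul_eq_mul, MvPolynomial.pderiv_X]
    rw [add_mul, mul_add, Finset.sum_mul]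
    have h1 : (∑ i, algebraMap K C (MvPolynomial.eval a (MvPolynomial.pderiv i p)) * ε i *
        (algebraMap K C (a n) + ε n)) =
        ∑ i, algebraMap K C (MvPolynomial.eval a (MvPolynomial.pderiv i p)) * ε i *
          algebraMap K C (a n) :=
      Finset.sum_congr rfl fun i _ => by
        rw [mul_add, mul_assoc _ (ε i) (ε n), hεn i, mul_zero, add_zero]
    rw [h1, add_assoc]
    congr 1
    simp only [add_mul, Finset.sum_add_distrib]
    congr 1
    · rw [Finset.sum_eq_single n]
      · simp
      · intro i _ hi
        simp [Pi.single_eq_of_ne hi.symm]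
      · simp
    · exact Finset.sum_congr rfl fun i _ => by ring

theorem isAdicComplete_pow {S : Type*} [CommRing S] (I : Ideal S) [IsAdicComplete I S]
    {k : ℕ} (hk : 0 < k) : IsAdicComplete (I ^ k) S := by
  have hle : ∀ n, (I ^ k) ^ n • (⊤ : Submodule S S) ≤ I ^ n • ⊤ := fun n => by
    rw [← pow_mul]
    exact Submodule.smul_mono_left (Ideal.pow_le_pow_right (Nat.le_mul_of_pos_left n hk))
  exact
    { haus' := fun x hx => IsHausdorff.haus (I := I) inferInstance x fun n =>
        SModEq.mono (hle n) (hx n)
      prec' := fun f hf => by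
        obtain ⟨L, hL⟩ := IsPrecomplete.prec (I := I) inferInstance
          (f := f) (fun {m n} h => SModEq.mono (hle m) (hf h))
        refine ⟨L, fun n => ?_⟩
        have h1 := hf (Nat.le_mul_of_pos_left n hk)
        have h2 : f (k * n) ≡ L [SMOD ((I ^ k) ^ n • ⊤ : Submodule S S)] := by
          rw [← pow_mul]
          exact hL (k * n)
        exact h1.trans h2 }

/-- A power series expansion of a local ring, in `g` parameters. -/
structure Expansion (K : Type*) (O : Type*) [Field K] [CommRing O] [IsLocalRing O] [Algebra K O]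
    (g : ℕ) where
  σ : O →ₐ[K] MvPowerSeries (Fin g) K
  t : Fin g → O
  span_t : maximalIdeal O = Ideal.span (Set.range t)
  injective : Function.Injective σ
  σ_t : ∀ i, LowZero 2 (σ (t i) - MvPowerSeries.X i)
  mem_pow_iff : ∀ (r : O) (M : ℕ), r ∈ maximalIdeal O ^ M ↔ LowZero M (σ r)
  surj_trunc : ∀ (M : ℕ) (φ : MvPowerSeries (Fin g) K), ∃ r, LowZero M (σ r - φ)

variable {K : Type*} [Field K] {g : ℕ}

theorem lowZero_iff_sub {M : ℕ} {p q : MvPowerSeries (Fin g) K} :
    LowZero M (p - q) ↔ ∀ α : Fin g →₀ ℕ, α.degree < M → coeff α p = coeff α q := by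
  simp [LowZero, sub_eq_zero]

section Build

variable {O : Type*} [CommRing O] [IsLocalRing O] [IsNoetherianRing O] [Algebra K O]
  (σ : O →ₐ[K] MvPowerSeries (Fin g) K) (t : Fin g → O)

/-- The monomial in the parameters. -/
def tMon (α : Fin g →₀ ℕ) : O := α.prod fun i k => t i ^ k

theorem monomial_eq_prod (α : Fin g →₀ ℕ) :
    monomial α (1 : K) = α.prod fun i k => (MvPowerSeries.X i : MvPowerSeries (Fin g) K) ^ k := by
  induction α using Finsupp.induction with
  | zero => simp [monomial_zero_eq_C_apply]
  | single_add i k α hi hk ih =>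
    have h1 : ((Finsupp.single i k).prod fun i k =>
        (MvPowerSeries.X i : MvPowerSeries (Fin g) K) ^ k) = MvPowerSeries.X i ^ k :=
      Finsupp.prod_single_index (pow_zero _)
    rw [Finsupp.prod_add_index_of_disjoint, h1, ← ih, X_pow_eq, monomial_mul_monomial, one_mul]
    rw [Finsupp.support_single _ hk]
    simpa using hi

variable {σ t}

omit [IsLocalRing O] [IsNoetherianRing O] in
theorem lowZero_X_pow (i : Fin g) (m : ℕ) :
    LowZero m ((MvPowerSeries.X i : MvPowerSeries (Fin g) K) ^ m) :=
  mem_pow_varIdeal_iff.mp (Ideal.pow_mem_pow (I := varIdeal K g) (Ideal.subset_span ⟨i, rfl⟩) _)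

omit [IsLocalRing O] [IsNoetherianRing O] in
theorem lowZero_σ_pow (hσ : ∀ i, LowZero 2 (σ (t i) - MvPowerSeries.X i)) (i : Fin g) (k : ℕ) :
    LowZero (k + 1) (σ (t i ^ k) - MvPowerSeries.X i ^ k) := by
  rw [map_pow]
  induction k with
  | zero => simp [LowZero]
  | succ k ihk =>
    have h1 : LowZero 1 (σ (t i)) := by
      intro α hα
      rw [lowZero_iff_sub.mp (hσ i) α (by omega)]
      exact lowZero_X i α hα
    have e : σ (t i) ^ (k + 1) - MvPowerSeries.X i ^ (k + 1) =
      (σ (t i) ^ k - MvPowerSeries.X i ^ k) * σ (t i) +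
        MvPowerSeries.X i ^ k * (σ (t i) - MvPowerSeries.X i) := by ring
    rw [e]
    intro β hβ
    rw [map_add, lowZero_mul ihk h1 β (by omega),
      lowZero_mul (lowZero_X_pow i k) (hσ i) β (by omega), add_zero]

omit [IsLocalRing O] [IsNoetherianRing O] in
theorem lowZero_σ_tMon (hσ : ∀ i, LowZero 2 (σ (t i) - MvPowerSeries.X i)) (α : Fin g →₀ ℕ) :
    LowZero (α.degree + 1) (σ (tMon t α) - monomial α 1) := by
  rw [monomial_eq_prod, tMon, map_finsuppProd]
  induction α using Finsupp.induction with
  | zero => simp [LowZero]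
  | single_add i k α hi hk ih =>
    have hd : Disjoint (Finsupp.single i k).support α.support := by
      rw [Finsupp.support_single _ hk]; simpa using hi
    have h1 : ((Finsupp.single i k).prod fun i k =>
        (MvPowerSeries.X i : MvPowerSeries (Fin g) K) ^ k) = MvPowerSeries.X i ^ k :=
      Finsupp.prod_single_index (pow_zero _)
    have h2 : ((Finsupp.single i k).prod fun a b => σ (t a ^ b)) = σ (t i ^ k) :=
      Finsupp.prod_single_index (h := fun a b => σ (t a ^ b)) (by simp)
    rw [Finsupp.prod_add_index_of_disjoint hd, Finsupp.prod_add_index_of_disjoint hd,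
      h1, h2, map_add, Finsupp.degree_single]
    set A : MvPowerSeries (Fin g) K := σ (t i ^ k) with hA
    set B := α.prod fun a b => σ (t a ^ b) with hB
    set A0 : MvPowerSeries (Fin g) K := MvPowerSeries.X i ^ k with hA0
    set B0 := α.prod fun a b => (MvPowerSeries.X a : MvPowerSeries (Fin g) K) ^ b with hB0
    have hAA : LowZero (k + 1) (A - A0) := lowZero_σ_pow hσ i k
    have hB0' : LowZero α.degree B0 := by
      intro β hβ
      rw [hB0, ← monomial_eq_prod, coeff_monomial, if_neg]
      rintro rfl
      omega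
    have hA' : LowZero k A := by
      intro β hβ
      rw [lowZero_iff_sub.mp hAA β (by omega), hA0]
      exact lowZero_X_pow i k β hβ
    have e : A * B - A0 * B0 = A * (B - B0) + (A - A0) * B0 := by ring
    rw [e]
    intro β hβ
    rw [map_add, lowZero_mul hA' ih β (by omega), lowZero_mul hAA hB0' β (by omega), add_zero]

omit [IsLocalRing O] [IsNoetherianRing O] in
theorem exists_approx (hσ : ∀ i, LowZero 2 (σ (t i) - MvPowerSeries.X i)) (M : ℕ)
    (φ : MvPowerSeries (Fin g) K) : ∃ r, LowZero M (σ r - φ) := by
  induction M with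
  | zero => exact ⟨0, fun α hα => absurd hα (Nat.not_lt_zero _)⟩
  | succ M ih =>
    obtain ⟨r, hr⟩ := ih
    let S := (Finsupp.finite_of_degree_le (σ := Fin g) M).toFinset.filter fun α => α.degree = M
    refine ⟨r + ∑ α ∈ S, (coeff α (φ - σ r)) • tMon t α, fun β hβ => ?_⟩
    have hd : σ (r + ∑ α ∈ S, (coeff α (φ - σ r)) • tMon t α) - φ
        = (σ r - φ) + ∑ α ∈ S, coeff α (φ - σ r) • σ (tMon t α) := by
      rw [map_add, map_sum]
      simp only [map_smul]
      ring
    rw [hd, map_add, map_sum]
    simp only [map_smul, smul_eq_mul]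
    rcases Nat.lt_or_ge β.degree M with h | h
    · rw [hr β h, zero_add]
      refine Finset.sum_eq_zero fun α hα => ?_
      have hαM : α.degree = M := (Finset.mem_filter.mp hα).2
      rw [lowZero_iff_sub.mp (lowZero_σ_tMon hσ α) β (by omega), coeff_monomial, if_neg, mul_zero]
      rintro rfl
      omega
    · have hM : β.degree = M := by omega
      rw [Finset.sum_eq_single β]
      · rw [lowZero_iff_sub.mp (lowZero_σ_tMon hσ β) β (by omega), coeff_monomial, if_pos rfl]
        simp [map_sub]
      · intro α hα hne
        have hαM : α.degree = M := (Finset.mem_filter.mp hα).2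
        rw [lowZero_iff_sub.mp (lowZero_σ_tMon hσ α) β (by omega), coeff_monomial, if_neg hne.symm,
          mul_zero]
      · intro hβS
        exact absurd (show β ∈ S from Finset.mem_filter.mpr ⟨(Set.Finite.mem_toFinset _).mpr hM.le, hM⟩) hβS

omit [IsNoetherianRing O] in
theorem pow_le_span_tMon (hspan : maximalIdeal O = Ideal.span (Set.range t))
    (hK : ∀ r : O, ∃ c : K, r - algebraMap K O c ∈ maximalIdeal O) (M : ℕ) :
    Submodule.restrictScalars K (maximalIdeal O ^ M) ≤
      Submodule.span K (tMon t '' {α | α.degree = M}) ⊔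
        Submodule.restrictScalars K (maximalIdeal O ^ (M + 1)) := by
  induction M with
  | zero =>
    intro r _
    obtain ⟨c, hc⟩ := hK r
    refine Submodule.mem_sup.mpr
      ⟨c • tMon t 0, Submodule.smul_mem _ _ (Submodule.subset_span ⟨0, by simp, rfl⟩),
        r - algebraMap K O c, by simpa using hc, ?_⟩
    simp [tMon, Algebra.smul_def]
  | succ M ih =>
    intro r hr
    rw [Submodule.restrictScalars_mem, pow_succ] at hr
    refine Submodule.mul_induction_on hr (fun a ha b hb => ?_) fun x y hx hy => add_mem hx hy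
    rw [hspan] at hb
    obtain ⟨y, hy⟩ := Ideal.mem_span_range_iff_exists_fun.mp hb
    rw [← hy, Finset.mul_sum]
    refine Submodule.sum_mem _ fun i _ => ?_
    obtain ⟨c, hc⟩ := hK (y i)
    obtain ⟨w, hw, m, hm, hwm⟩ := Submodule.mem_sup.mp (ih ha)
    have hti : t i ∈ maximalIdeal O := hspan ▸ Ideal.subset_span ⟨i, rfl⟩
    have hwt : w * t i ∈ Submodule.span K (tMon t '' {α | α.degree = M + 1}) := by
      refine Submodule.span_induction ?_ (by simp) ?_ ?_ hw
      · rintro _ ⟨α, hα, rfl⟩
        refine Submodule.subset_span ⟨α + Finsupp.single i 1, ?_, ?_⟩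
        · simpa using hα
        · have h1 : ((Finsupp.single i 1).prod fun i k => t i ^ k) = t i ^ 1 :=
            Finsupp.prod_single_index (pow_zero _)
          rw [tMon, tMon, Finsupp.prod_add_index' (by simp) (by simp [pow_add]), h1, pow_one]
      · intro x y _ _ hx hy; rw [add_mul]; exact add_mem hx hy
      · intro k x _ hx; rw [smul_mul_assoc]; exact Submodule.smul_mem _ k hx
    refine Submodule.mem_sup.mpr ⟨c • (w * t i), Submodule.smul_mem _ _ hwt,
      (y i - algebraMap K O c) * t i * a + algebraMap K O c * (m * t i), ?_, ?_⟩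
    · rw [Submodule.restrictScalars_mem]
      refine add_mem ?_ (Ideal.mul_mem_left _ _ ?_)
      · rw [mul_comm, pow_succ, pow_succ, mul_assoc]
        exact Submodule.mul_mem_mul ha (Submodule.mul_mem_mul hc hti)
      · rw [pow_succ]
        exact Submodule.mul_mem_mul hm hti
    · rw [← hwm, Algebra.smul_def]
      ring

/-- Criterion for an expansion. -/
def Expansion.ofParams (hspan : maximalIdeal O = Ideal.span (Set.range t))
    (hK : ∀ r : O, ∃ c : K, r - algebraMap K O c ∈ maximalIdeal O)
    (hσ : ∀ i, LowZero 2 (σ (t i) - MvPowerSeries.X i)) : Expansion K O g :=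
  have hmap : ∀ (M : ℕ) (r : O), r ∈ maximalIdeal O ^ M → LowZero M (σ r) := by
    intro M r hr
    have h1 : (maximalIdeal O).map σ ≤ varIdeal K g := by
      rw [hspan, Ideal.map_span, Ideal.span_le]
      rintro _ ⟨_, ⟨i, rfl⟩, rfl⟩
      rw [SetLike.mem_coe, ← pow_one (varIdeal K g), mem_pow_varIdeal_iff]
      intro α hα
      rw [lowZero_iff_sub.mp (hσ i) α (by omega)]
      exact lowZero_X i α hα
    have h2 := Ideal.mem_map_of_mem σ hr
    rw [Ideal.map_pow] at h2
    exact mem_pow_varIdeal_iff.mp (Ideal.pow_right_mono h1 M h2)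
  have hmem : ∀ (M : ℕ) (r : O), LowZero M (σ r) → r ∈ maximalIdeal O ^ M := by
    intro M
    induction M with
    | zero => simp
    | succ M ih =>
      intro r hr
      obtain ⟨w, hw, m, hm, rfl⟩ := Submodule.mem_sup.mp
        (pow_le_span_tMon hspan hK M (ih r fun α hα => hr α (by omega)))
      obtain ⟨c, hcS, rfl⟩ := (Finsupp.mem_span_image_iff_linearCombination K).mp hw
      suffices hc : c = 0 by simpa [hc] using hm
      ext β
      by_contra hne
      have hβ : β.degree = M := hcS (Finsupp.mem_support_iff.mpr hne)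
      have h := hr β (by omega)
      rw [map_add, map_add, hmap (M + 1) m hm β (by omega), add_zero,
        Finsupp.linearCombination_apply, Finsupp.sum, map_sum, map_sum,
        Finset.sum_eq_single β] at h
      · rw [map_smul, map_smul, lowZero_iff_sub.mp (lowZero_σ_tMon hσ β) β (by omega),
          coeff_monomial, if_pos rfl, smul_eq_mul, mul_one] at h
        exact hne (by simpa using h)
      · intro α hα hne'
        have hαM : α.degree = M := hcS hα
        rw [map_smul, map_smul, lowZero_iff_sub.mp (lowZero_σ_tMon hσ α) β (by omega),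
          coeff_monomial, if_neg hne'.symm, smul_zero]
      · intro h'
        simp [Finsupp.notMem_support_iff.mp h']
  { σ := σ, t := t, span_t := hspan, σ_t := hσ
    surj_trunc := exists_approx hσ
    mem_pow_iff := fun r M => ⟨hmap M r, hmem M r⟩
    injective := (injective_iff_map_eq_zero σ).mpr fun r hr => by
      have h : r ∈ ⨅ M : ℕ, maximalIdeal O ^ M :=
        Ideal.mem_iInf.mpr fun M => hmem M r (by rw [hr]; intro α _; exact map_zero _)
      rwa [Ideal.iInf_pow_eq_bot_of_isLocalRing _ (maximalIdeal.isMaximal O).ne_top,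
        Ideal.mem_bot] at h }

end Build

end Fermat.Agent.AbVar
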