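import Mathlib

/-!
# Power series with vanishing low coefficients
-/

set_option autoImplicit false

noncomputable section

open scoped Classical
open MvPowerSeries

namespace Fermat.Agent.AbVar

variable {K : Type*} [Field K] {g : ℕ}

/-- The ideal of the variables. -/
abbrev varIdeal (K : Type*) [Field K] (g : ℕ) : Ideal (MvPowerSeries (Fin g) K) :=
  Ideal.span (Set.range MvPowerSeries.X)

/-- All coefficients of total degree `< M` vanish. -/
def LowZero (M : ℕ) (p : MvPowerSeries (Fin g) K) : Prop :=
  ∀ α : Fin g →₀ ℕ, α.degree < M → coeff α p = 0

theorem lowZero_mul {M N : ℕ} {p q : MvPowerSeries (Fin g) K} (hp : LowZero M p) (hq : LowZero N q) :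
    LowZero (M + N) (p * q) := by
  intro α hα
  rw [coeff_mul]
  refine Finset.sum_eq_zero fun ⟨a, b⟩ hab => ?_
  rw [Finset.HasAntidiagonal.mem_antidiagonal] at hab
  subst hab
  rw [map_add] at hα
  simp only at hα ⊢
  rcases lt_or_ge a.degree M with h | h
  · rw [hp a h, zero_mul]
  · rw [hq b (by omega), mul_zero]

theorem lowZero_X (i : Fin g) : LowZero 1 (X i : MvPowerSeries (Fin g) K) := by
  intro α hα
  rw [coeff_X, if_neg]
  rintro rfl
  simp at hα

theorem mem_pow_varIdeal_iff {M : ℕ} {p : MvPowerSeries (Fin g) K} :
    p ∈ varIdeal K g ^ M ↔ LowZero M p := by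
  constructor
  · intro hp
    induction M generalizing p with
    | zero => intro α hα; simp at hα
    | succ M ih =>
      rw [pow_succ] at hp
      refine Submodule.mul_induction_on hp (fun a ha b hb => ?_) fun a b ha hb α hα => ?_
      · refine lowZero_mul (ih ha) ?_
        refine Submodule.span_induction ?_ ?_ ?_ ?_ hb
        · rintro _ ⟨i, rfl⟩; exact lowZero_X i
        · exact fun α _ => map_zero _
        · intro x y _ _ hx hy α hα; rw [map_add, hx α hα, hy α hα, add_zero]
        · intro c x _ hx
          rw [smul_eq_mul]
          simpa using lowZero_mul (M := 0) (p := c) (fun α hα => absurd hα (Nat.not_lt_zero _)) hx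
      · rw [map_add, ha α hα, hb α hα, add_zero]
  · intro hp
    induction M generalizing p with
    | zero => simp
    | succ M ih =>
      let first : (Fin g →₀ ℕ) → Fin g → Prop := fun α i => α i ≠ 0 ∧ ∀ j < i, α j = 0
      let q : Fin g → MvPowerSeries (Fin g) K := fun i β =>
        if first (β + Finsupp.single i 1) i then coeff (β + Finsupp.single i 1) p else 0
      have hq : ∀ i, LowZero M (q i) := by
        intro i β hβ
        show (if first (β + Finsupp.single i 1) i then coeff (β + Finsupp.single i 1) p else 0) = 0
        split_ifs
        · exact hp _ (by rw [map_add, Finsupp.degree_single]; omega)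
        · rfl
      have hpq : p = ∑ i, q i * X i := by
        ext α
        rw [map_sum]
        have hterm : ∀ i, coeff α (q i * X i) = if first α i then coeff α p else 0 := by
          intro i
          by_cases hi : α i = 0
          · rw [if_neg fun h => h.1 hi, MvPowerSeries.X_def, coeff_mul_monomial, if_neg]
            intro hle
            simpa [hi] using hle i
          · have hle : Finsupp.single i 1 ≤ α := by
              rw [Finsupp.single_le_iff]; omega
            rw [MvPowerSeries.X_def, coeff_mul_monomial, if_pos hle, mul_one]
            show (if first (α - Finsupp.single i 1 + Finsupp.single i 1) i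
              then coeff (α - Finsupp.single i 1 + Finsupp.single i 1) p else 0) = _
            rw [tsub_add_cancel_of_le hle]
        simp only [hterm]
        by_cases hα : α = 0
        · subst hα
          rw [hp 0 (by simp)]
          simp
        · obtain ⟨i, hi⟩ : ∃ i, α i ≠ 0 := by
            by_contra! h
            exact hα (Finsupp.ext h)
          let s := Finset.univ.filter fun i => α i ≠ 0
          have hs : s.Nonempty := ⟨i, by simp [s, hi]⟩
          have h0 : first α (s.min' hs) := by
            refine ⟨(Finset.mem_filter.mp (s.min'_mem hs)).2, fun j hj => ?_⟩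
            by_contra hne
            exact absurd (s.min'_le j (by simp [s, hne])) (not_le.mpr hj)
          rw [Finset.sum_eq_single (s.min' hs), if_pos h0]
          · intro j _ hj
            rw [if_neg]
            intro hfj
            rcases lt_or_gt_of_ne hj with h | h
            · exact hfj.1 (h0.2 j h)
            · exact h0.1 (hfj.2 _ h)
          · simp
      rw [hpq, pow_succ]
      exact Ideal.sum_mem _ fun i _ =>
        Submodule.mul_mem_mul (ih (hq i)) (Ideal.subset_span ⟨i, rfl⟩)

theorem maximalIdeal_eq_varIdeal :
    IsLocalRing.maximalIdeal (MvPowerSeries (Fin g) K) = varIdeal K g := by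
  ext p
  rw [← pow_one (varIdeal K g), mem_pow_varIdeal_iff, IsLocalRing.mem_maximalIdeal, mem_nonunits_iff,
    isUnit_iff_constantCoeff, isUnit_iff_ne_zero, not_not]
  constructor
  · intro h α hα
    have : α = 0 := Finsupp.degree_eq_zero_iff α |>.mp (by omega)
    subst this
    simpa [coeff_zero_eq_constantCoeff] using h
  · intro h
    simpa [coeff_zero_eq_constantCoeff] using h 0 (by simp)

end Fermat.Agent.AbVar
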