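import Fermat.Agent.AbVar.LocalAlg.Expansion

/-!
# The expansion at a rational point of a standard smooth algebra
-/

set_option autoImplicit false

noncomputable section

open scoped Classical
open MvPowerSeries IsLocalRing

namespace Fermat.Agent.AbVar

variable {K R : Type*} [Field K] [CommRing R] [Algebra K R] {g : ℕ}

theorem aeval_mem_span_sub {ι : Type*} [Fintype ι] (a : ι → K) (p : MvPolynomial ι K) :
    p - MvPolynomial.C (MvPolynomial.eval a p) ∈
      Ideal.span (Set.range fun i => (MvPolynomial.X i - MvPolynomial.C (a i) : MvPolynomial ι K)) := by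
  induction p using MvPolynomial.induction_on with
  | C c => simp
  | add p q hp hq =>
    have e : p + q - MvPolynomial.C (MvPolynomial.eval a (p + q)) =
      (p - MvPolynomial.C (MvPolynomial.eval a p)) +
        (q - MvPolynomial.C (MvPolynomial.eval a q)) := by
      rw [map_add, map_add]; ring
    rw [e]; exact add_mem hp hq
  | mul_X p n hp =>
    have e : p * MvPolynomial.X n - MvPolynomial.C (MvPolynomial.eval a (p * MvPolynomial.X n)) =
      (p - MvPolynomial.C (MvPolynomial.eval a p)) * MvPolynomial.X n +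
        MvPolynomial.C (MvPolynomial.eval a p) * (MvPolynomial.X n - MvPolynomial.C (a n)) := by
      rw [map_mul, MvPolynomial.eval_X, map_mul]; ring
    rw [e]
    exact add_mem (Ideal.mul_mem_right _ _ hp)
      (Ideal.mul_mem_left _ _ (Ideal.subset_span ⟨n, rfl⟩))

section

variable {ι κ : Type} [Fintype ι] [Fintype κ]
  (P : Algebra.SubmersivePresentation K R ι κ) (π : R →ₐ[K] K)

/-- The coordinates of the point. -/
abbrev pointCoord : ι → K := fun i => π (P.val i)

/-- The minor of the Jacobian. -/
abbrev pivotJac : Matrix κ κ K := Matrix.of fun j p =>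
  MvPolynomial.eval (pointCoord P π) (MvPolynomial.pderiv (P.map p) (P.relation j))

omit [Fintype ι] in
theorem eval_pointCoord (p : MvPolynomial ι K) :
    π (MvPolynomial.aeval P.val p) = MvPolynomial.eval (pointCoord P π) p := by
  rw [← AlgHom.comp_apply, MvPolynomial.comp_aeval, ← MvPolynomial.aeval_eq_eval]

omit [Fintype ι] in
theorem eval_relation (j : κ) : MvPolynomial.eval (pointCoord P π) (P.relation j) = 0 := by
  rw [← eval_pointCoord, P.aeval_val_relation, map_zero]

omit [Fintype ι] in
theorem isUnit_det_pivotJac : IsUnit (pivotJac P π).det := by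
  have h := P.jacobian_isUnit.map π
  rw [P.jacobian_eq_jacobiMatrix_det] at h
  have h2 : π (algebraMap P.Ring R P.jacobiMatrix.det) = (pivotJac P π).transpose.det := by
    rw [Algebra.Generators.algebraMap_apply, eval_pointCoord, RingHom.map_det]
    congr 1
    ext p j
    simp [Algebra.PreSubmersivePresentation.jacobiMatrix_apply, Matrix.transpose_apply]
  rwa [h2, Matrix.det_transpose] at h

theorem ker_eq_span_val_sub :
    RingHom.ker π = Ideal.span (Set.range fun i => P.val i - algebraMap K R (pointCoord P π i)) := by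
  apply le_antisymm
  · intro r hr
    have h := aeval_mem_span_sub (pointCoord P π) (P.σ r)
    rw [← eval_pointCoord, P.aeval_val_σ, RingHom.mem_ker.mp hr, map_zero, sub_zero] at h
    have h' := Ideal.mem_map_of_mem (MvPolynomial.aeval P.val) h
    rw [P.aeval_val_σ, Ideal.map_span, ← Set.range_comp] at h'
    convert h' using 3
    ext i
    simp
  · rw [Ideal.span_le]
    rintro _ ⟨i, rfl⟩
    simp

theorem sum_mul_eq_zero_of_smooth {C : Type*} [CommRing C] [Algebra K C] (f : R →ₐ[K] C)
    (ε : ι → C) (hε : ∀ i j, ε i * ε j = 0)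
    (hf : ∀ i, f (P.val i) = algebraMap K C (pointCoord P π i) + ε i) (j : κ) :
    ∑ i, algebraMap K C
      (MvPolynomial.eval (pointCoord P π) (MvPolynomial.pderiv i (P.relation j))) * ε i = 0 := by
  have h := aeval_add_of_mul_eq_zero (K := K) (pointCoord P π) ε hε (P.relation j)
  have h1 : (fun i => algebraMap K C (pointCoord P π i) + ε i) = fun i => f (P.val i) :=
    funext fun i => (hf i).symm
  rw [h1, ← MvPolynomial.comp_aeval_apply, P.aeval_val_relation, map_zero, eval_relation,
    map_zero, zero_add] at h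
  exact h.symm

theorem pivot_mem {C : Type*} [CommRing C] [Algebra K C] (T : Ideal C) (ε : ι → C)
    (hrel : ∀ j, ∑ i, algebraMap K C
      (MvPolynomial.eval (pointCoord P π) (MvPolynomial.pderiv i (P.relation j))) * ε i = 0)
    (hfree : ∀ i, i ∉ Set.range P.map → ε i ∈ T) (i : ι) : ε i ∈ T := by
  by_cases hi : i ∈ Set.range P.map
  swap
  · exact hfree i hi
  obtain ⟨p, rfl⟩ := hi
  set J := pivotJac P π
  have hJ := isUnit_det_pivotJac P π
  have hsum : ∀ j, ∑ p, algebraMap K C (J j p) * ε (P.map p) ∈ T := by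
    intro j
    have hsplit := hrel j
    rw [← Finset.sum_add_sum_compl (Finset.univ.image P.map),
      Finset.sum_image (fun x _ y _ h => P.map_inj h)] at hsplit
    rw [show (∑ p, algebraMap K C (J j p) * ε (P.map p)) = _ from
      eq_neg_of_add_eq_zero_left hsplit]
    refine T.neg_mem (Ideal.sum_mem _ fun i hi => Ideal.mul_mem_left _ _ (hfree i ?_))
    rintro ⟨p', rfl⟩
    simp at hi
  have h : ε (P.map p) = ∑ j, algebraMap K C (J⁻¹ p j) *
      ∑ p', algebraMap K C (J j p') * ε (P.map p') := by
    simp only [Finset.mul_sum, ← mul_assoc, ← map_mul]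
    rw [Finset.sum_comm]
    simp only [← Finset.sum_mul, ← map_sum]
    rw [Finset.sum_eq_single p]
    · have := congrFun (congrFun (Matrix.nonsing_inv_mul J hJ) p) p
      rw [Matrix.mul_apply, Matrix.one_apply_eq] at this
      rw [this, map_one, one_mul]
    · intro p' _ hne
      have := congrFun (congrFun (Matrix.nonsing_inv_mul J hJ) p) p'
      rw [Matrix.mul_apply, Matrix.one_apply_ne hne.symm] at this
      rw [this, map_zero, zero_mul]
    · simp
  rw [h]
  exact Ideal.sum_mem _ fun j _ => Ideal.mul_mem_left _ _ (hsum j)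

theorem exists_tangent_vectors (e : Fin g ≃ {i : ι // i ∉ Set.range P.map}) :
    ∃ v : ι → Fin g → K, (∀ k l, v (e k) l = if k = l then 1 else 0) ∧
      ∀ j k, ∑ i, MvPolynomial.eval (pointCoord P π) (MvPolynomial.pderiv i (P.relation j)) * v i k
        = 0 := by
  set J := pivotJac P π with hJdef
  have hJ := isUnit_det_pivotJac P π
  let v : ι → Fin g → K := fun i k =>
    if hi : i ∈ Set.range P.map then
      -(J⁻¹.mulVec (fun j => MvPolynomial.eval (pointCoord P π)
        (MvPolynomial.pderiv (e k : ι) (P.relation j)))) hi.choose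
    else if e k = ⟨i, hi⟩ then 1 else 0
  have hvfree : ∀ k l, v (e k) l = if k = l then 1 else 0 := fun k l => by
    simp only [v, dif_neg (e k).2, Subtype.coe_eta, EmbeddingLike.apply_eq_iff_eq]
    exact if_congr eq_comm rfl rfl
  refine ⟨v, hvfree, fun j k => ?_⟩
  let b : κ → K := fun j => MvPolynomial.eval (pointCoord P π)
    (MvPolynomial.pderiv (e k : ι) (P.relation j))
  rw [← Finset.sum_add_sum_compl (Finset.univ.image P.map),
    Finset.sum_image (fun x _ y _ h => P.map_inj h)]
  have h1 : ∀ p, v (P.map p) k = -(J⁻¹.mulVec b) p := fun p => by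
    have hm : P.map p ∈ Set.range P.map := ⟨p, rfl⟩
    simp only [v, dif_pos hm]
    rw [P.map_inj hm.choose_spec]
  have h2 : ∑ p, J j p * v (P.map p) k = -b j := by
    simp only [h1, mul_neg, Finset.sum_neg_distrib]
    congr 1
    show J.mulVec (J⁻¹.mulVec b) j = b j
    rw [Matrix.mulVec_mulVec, Matrix.mul_nonsing_inv J hJ, Matrix.one_mulVec]
  have h3 : ∑ i ∈ (Finset.univ.image P.map)ᶜ, MvPolynomial.eval (pointCoord P π)
      (MvPolynomial.pderiv i (P.relation j)) * v i k = b j := by
    rw [Finset.sum_eq_single (e k : ι)]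
    · rw [hvfree, if_pos rfl, mul_one]
    · intro i hi hne
      have hi' : i ∉ Set.range P.map := by rintro ⟨p, rfl⟩; simp at hi
      simp only [v, dif_neg hi']
      rw [if_neg fun h => hne (by rw [h]), mul_zero]
    · intro h
      exact absurd (by simpa using (e k).2) h
  exact (congrArg₂ (· + ·) h2 h3).trans (neg_add_cancel _)

theorem exists_tangentHom {C : Type*} [CommRing C] [Algebra K C] (τ : Fin g → C)
    (hτ : ∀ k l, τ k * τ l = 0) (v : ι → Fin g → K)
    (hv : ∀ j k, ∑ i, MvPolynomial.eval (pointCoord P π) (MvPolynomial.pderiv i (P.relation j))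
      * v i k = 0) :
    ∃ f : R →ₐ[K] C, ∀ i, f (P.val i) =
      algebraMap K C (pointCoord P π i) + ∑ k, algebraMap K C (v i k) * τ k := by
  let a := pointCoord P π
  let ε : ι → C := fun i => ∑ k, algebraMap K C (v i k) * τ k
  have hε : ∀ i j, ε i * ε j = 0 := fun i j => by
    simp only [ε, Finset.sum_mul, Finset.mul_sum]
    refine Finset.sum_eq_zero fun k _ => Finset.sum_eq_zero fun l _ => ?_
    rw [mul_mul_mul_comm, hτ, mul_zero]
  let F : MvPolynomial ι K →ₐ[K] C := MvPolynomial.aeval (fun i => algebraMap K C (a i) + ε i)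
  have hkill : ∀ p ∈ RingHom.ker (MvPolynomial.aeval (R := K) P.val), F p = 0 := by
    rw [← P.ker_eq_ker_aeval_val, ← P.span_range_relation_eq_ker]
    intro p hp
    refine (Ideal.span_le (I := RingHom.ker F)).mpr ?_ hp
    rintro _ ⟨j, rfl⟩
    rw [SetLike.mem_coe, RingHom.mem_ker]
    refine (aeval_add_of_mul_eq_zero a ε hε _).trans ?_
    rw [eval_relation, map_zero, zero_add]
    simp only [ε, Finset.mul_sum, ← mul_assoc, ← map_mul]
    rw [Finset.sum_comm]
    simp only [← Finset.sum_mul, ← map_sum, a, hv, map_zero, zero_mul, Finset.sum_const_zero]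
  have hs : Function.Surjective (MvPolynomial.aeval (R := K) P.val) :=
    fun r => ⟨P.σ r, P.aeval_val_σ r⟩
  refine ⟨(Ideal.Quotient.liftₐ _ F hkill).comp
    (Ideal.quotientKerAlgEquivOfSurjective hs).symm.toAlgHom, fun i => ?_⟩
  have h : (Ideal.quotientKerAlgEquivOfSurjective hs).symm (P.val i) =
      Ideal.Quotient.mk _ (MvPolynomial.X i) := by
    rw [AlgEquiv.symm_apply_eq]
    simp
  simp [h, F, ε, a]

theorem span_params_eq (O : Type*) [CommRing O] [Algebra R O] [Algebra K O] [IsScalarTower K R O]
    [IsLocalRing O] [IsNoetherianRing O] [(RingHom.ker π).IsPrime]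
    [IsLocalization.AtPrime O (RingHom.ker π)] (e : Fin g ≃ {i : ι // i ∉ Set.range P.map}) :
    IsLocalRing.maximalIdeal O = Ideal.span (Set.range fun k =>
      algebraMap R O (P.val (e k) - algebraMap K R (pointCoord P π (e k)))) := by
  let u : ι → O := fun i => algebraMap R O (P.val i - algebraMap K R (pointCoord P π i))
  have hu : IsLocalRing.maximalIdeal O = Ideal.span (Set.range u) := by
    rw [← IsLocalization.AtPrime.map_eq_maximalIdeal (RingHom.ker π) O, ker_eq_span_val_sub P π,
      Ideal.map_span, ← Set.range_comp]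
    rfl
  set m := IsLocalRing.maximalIdeal O with hm
  let t : Fin g → O := fun k => u (e k)
  show m = Ideal.span (Set.range t)
  have hle : Ideal.span (Set.range t) ≤ m := by
    rw [hu]; exact Ideal.span_mono (Set.range_comp_subset_range (fun k => (e k : ι)) u)
  refine le_antisymm ?_ hle
  refine Submodule.le_of_le_smul_of_le_jacobson_bot (IsNoetherian.noetherian m)
    (IsLocalRing.jacobson_eq_maximalIdeal (⊥ : Ideal O) bot_ne_top).ge ?_
  let q : O →ₐ[K] O ⧸ (m • m) := Ideal.Quotient.mkₐ K _
  have hqs : Function.Surjective q := Ideal.Quotient.mk_surjective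
  have hε : ∀ i j, q (u i) * q (u j) = 0 := fun i j => by
    rw [← map_mul]
    exact Ideal.Quotient.eq_zero_iff_mem.mpr
      (Submodule.mul_mem_mul (hu ▸ Ideal.subset_span ⟨i, rfl⟩) (hu ▸ Ideal.subset_span ⟨j, rfl⟩))
  have hrel := sum_mul_eq_zero_of_smooth P π (q.comp (IsScalarTower.toAlgHom K R O))
    (fun i => q (u i)) hε fun i => by
      rw [← AlgHom.commutes q, ← map_add, AlgHom.comp_apply]
      congr 1
      show algebraMap R O (P.val i) = _
      simp only [u, map_sub, ← IsScalarTower.algebraMap_apply]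
      ring
  have hall := pivot_mem P π ((Ideal.span (Set.range t)).map q) (fun i => q (u i)) hrel
    fun i hi => Ideal.mem_map_of_mem q (Ideal.subset_span ⟨e.symm ⟨i, hi⟩, by simp [t]⟩)
  have hsub : Ideal.span (Set.range u) ≤ ((Ideal.span (Set.range t)).map q).comap q :=
    Ideal.span_le.mpr (by rintro _ ⟨i, rfl⟩; exact hall i)
  rw [Ideal.comap_map_of_surjective q hqs] at hsub
  intro x hx
  rw [hu] at hx
  obtain ⟨y, hy, z, hz, hyz⟩ := Submodule.mem_sup.mp (hsub hx)
  exact Submodule.mem_sup.mpr
    ⟨y, hy, z, Ideal.Quotient.eq_zero_iff_mem.mp (Ideal.mem_bot.mp hz), hyz⟩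

end

theorem mk_apply_sub_sum {g : ℕ} (c : K) (v : Fin g → K) :
    Ideal.Quotient.mk (varIdeal K g ^ 2)
        (algebraMap K _ c + ∑ k, algebraMap K _ (v k) * MvPowerSeries.X k) =
      algebraMap K _ c + ∑ k, algebraMap K _ (v k) *
        Ideal.Quotient.mk (varIdeal K g ^ 2) (MvPowerSeries.X k) := by
  simp [map_sum, ← Ideal.Quotient.algebraMap_eq, ← IsScalarTower.algebraMap_apply]

/-- A smooth algebra has an expansion at each rational point. -/
theorem nonempty_expansion [Algebra.IsStandardSmoothOfRelativeDimension g K R] (π : R →ₐ[K] K)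
    (O : Type*) [CommRing O] [Algebra R O] [Algebra K O] [IsScalarTower K R O] [IsLocalRing O]
    [hp : (RingHom.ker π).IsPrime] [IsLocalization.AtPrime O (RingHom.ker π)] :
    Nonempty (Expansion K O g) := by
  obtain ⟨ι, κ, hκ, hι, P, hP⟩ :=
    Algebra.IsStandardSmoothOfRelativeDimension.out (n := g) (R := K) (S := R)
  cases nonempty_fintype ι
  cases nonempty_fintype κ
  have hnoeR : IsNoetherianRing R :=
    isNoetherianRing_of_surjective _ _ (algebraMap P.Ring R) P.algebraMap_surjective
  have hnoe : IsNoetherianRing O := IsLocalization.isNoetherianRing (RingHom.ker π).primeCompl O ‹_›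
  have hfree : Fintype.card {i : ι // i ∉ Set.range P.map} = g := by
    rw [← hP, Algebra.Presentation.dimension, Fintype.card_subtype_compl,
      Nat.card_eq_fintype_card, Nat.card_eq_fintype_card]
    congr 1
    exact (Fintype.card_subtype _).trans (by
      rw [show (Finset.univ.filter fun x => x ∈ Set.range P.map) = Finset.univ.image P.map by
        ext; simp [eq_comm]]
      rw [Finset.card_image_of_injective _ P.map_inj, Finset.card_univ])
  let e : Fin g ≃ {i : ι // i ∉ Set.range P.map} := (Fintype.equivFinOfCardEq hfree).symm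
  have hK : ∀ r : O, ∃ c : K, r - algebraMap K O c ∈ IsLocalRing.maximalIdeal O := by
    intro r
    obtain ⟨⟨x, s⟩, hxs⟩ := IsLocalization.surj (RingHom.ker π).primeCompl r
    have hs : π s ≠ 0 := s.2
    refine ⟨π x / π s, ?_⟩
    have hmem : algebraMap R O (x - algebraMap K R (π x / π s) * s) ∈
        IsLocalRing.maximalIdeal O := by
      rw [← IsLocalization.AtPrime.map_eq_maximalIdeal (RingHom.ker π) O]
      refine Ideal.mem_map_of_mem _ ?_
      rw [RingHom.mem_ker, map_sub, map_mul, AlgHom.commutes]
      simp [div_mul_cancel₀ _ hs]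
    rw [map_sub, map_mul, ← hxs, ← IsScalarTower.algebraMap_apply, ← sub_mul] at hmem
    exact (Ideal.IsPrime.mem_or_mem inferInstance hmem).resolve_right fun h =>
      (IsLocalRing.mem_maximalIdeal _).mp h (IsLocalization.map_units O s)
  obtain ⟨v, hvfree, hv⟩ := exists_tangent_vectors P π e
  obtain ⟨f2, hf2⟩ := exists_tangentHom P π
    (fun k => Ideal.Quotient.mk (varIdeal K g ^ 2) (MvPowerSeries.X k))
    (fun k l => by
      rw [← map_mul]
      refine Ideal.Quotient.eq_zero_iff_mem.mpr ?_
      rw [sq]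
      exact Submodule.mul_mem_mul (Ideal.subset_span ⟨k, rfl⟩) (Ideal.subset_span ⟨l, rfl⟩)) v hv
  have : Algebra.IsStandardSmooth K R :=
    Algebra.IsStandardSmoothOfRelativeDimension.isStandardSmooth g
  have := isAdicComplete_pow (varIdeal K g) (k := 2) two_pos
  obtain ⟨σ₀, hσ₀⟩ := Algebra.FormallySmooth.exists_mkₐ_comp_eq_of_isAdicComplete f2
  have hlin : ∀ i, LowZero 2 (σ₀ (P.val i) -
      (algebraMap K _ (pointCoord P π i) + ∑ k, algebraMap K _ (v i k) * MvPowerSeries.X k)) := by
    intro i
    rw [← mem_pow_varIdeal_iff, ← Ideal.Quotient.eq, mk_apply_sub_sum, ← hf2 i, ← hσ₀]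
    rfl
  have hconst : ∀ r, MvPowerSeries.constantCoeff (σ₀ r) = π r := by
    let cc : MvPowerSeries (Fin g) K →ₐ[K] K :=
      { (MvPowerSeries.constantCoeff : MvPowerSeries (Fin g) K →+* K) with
        commutes' := fun c => by simp [MvPowerSeries.algebraMap_apply] }
    intro r
    suffices h : cc.comp σ₀ = π from AlgHom.congr_fun h r
    refine (AlgHom.cancel_right (f := MvPolynomial.aeval P.val)
      (fun r => ⟨P.σ r, P.aeval_val_σ r⟩)).mp (MvPolynomial.algHom_ext fun i => ?_)
    simp only [AlgHom.comp_apply, MvPolynomial.aeval_X]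
    show MvPowerSeries.constantCoeff (σ₀ (P.val i)) = π (P.val i)
    have h0 := hlin i 0 (by simp)
    rw [coeff_zero_eq_constantCoeff] at h0
    simpa [sub_eq_zero, MvPowerSeries.algebraMap_apply] using h0
  let σ : O →ₐ[K] MvPowerSeries (Fin g) K :=
    IsLocalization.liftAlgHom (M := (RingHom.ker π).primeCompl) (f := σ₀) fun s => by
      rw [MvPowerSeries.isUnit_iff_constantCoeff, hconst]
      exact isUnit_iff_ne_zero.mpr s.2
  refine ⟨Expansion.ofParams (σ := σ) (span_params_eq P π O e) hK fun k => ?_⟩
  have hσ : ∀ r, σ (algebraMap R O r) = σ₀ r := fun r => IsLocalization.lift_eq _ r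
  rw [hσ, map_sub, AlgHom.commutes]
  have h := hlin (e k)
  simp only [hvfree, apply_ite, map_one, map_zero, ite_mul, one_mul, zero_mul, Finset.sum_ite_eq,
    Finset.mem_univ, if_true] at h
  rwa [sub_add_eq_sub_sub] at h

end Fermat.Agent.AbVar
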